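/-
S44, block V, sub-node Embed (helper3): the theorem of Boston-Lenstra-Ribet in the form needed.

`V`, `W` two representations of a group `G` over a field `k` on which every `g` satisfies the SAME
quadratic relation `g ^ 2 - t g • g + ω g = 0`.  If `V` is irreducible and some `g₀` has two distinct
eigenvalues (in `k`) on `V`, and `W ≠ 0`, then `V` embeds `G`-equivariantly in `W`.
No hypothesis on dimensions or on the characteristic.
-/
import Mathlib
import Fermat.Agent.Lib.QuadraticRep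

set_option autoImplicit false

namespace Fermat.Agent.S44.V.BLR

open Fermat.Agent.Lib.QuadraticRep

section Pairs

variable {k E G : Type*} [Field k] [Ring E] [Algebra k E] [Group G]
  {ρ : G →* E} {ω : G →* kˣ} {t : G → k}

/-- the polarised relation, together with the fact that the span is closed under products -/
def Good (ρ : G →* E) (t : G → k) (p q : E × k) : Prop :=
  ∃ c : k, p.1 * q.1 + q.1 * p.1 = q.2 • p.1 + p.2 • q.1 + c • 1 ∧
    (p.1 * q.1, c + p.2 * q.2) ∈ pairSpan ρ t

theorem good_gen (h : ∀ g, ρ g * ρ g - t g • ρ g + (ω g : k) • 1 = 0) (g g' : G) :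
    Good ρ t (ρ g, t g) (ρ g', t g') := by
  refine ⟨t (g * g') - t g * t g', ?_, ?_⟩
  · have := anticomm_gen h g g'
    simp only
    linear_combination (norm := module) this
  · have : (ρ g * ρ g', t (g * g') - t g * t g' + t g * t g') = (ρ (g * g'), t (g * g')) := by
      rw [map_mul, sub_add_cancel]
    simp only
    rw [this]
    exact Submodule.subset_span ⟨g * g', rfl⟩

theorem Good.zero_left (q : E × k) : Good ρ t 0 q := by
  refine ⟨0, by simp, ?_⟩
  have : ((0 : E × k).1 * q.1, (0 : k) + (0 : E × k).2 * q.2) = 0 := by ext <;> simp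
  rw [this]
  exact Submodule.zero_mem _

theorem Good.zero_right (p : E × k) : Good ρ t p 0 := by
  refine ⟨0, by simp, ?_⟩
  have : (p.1 * (0 : E × k).1, (0 : k) + p.2 * (0 : E × k).2) = 0 := by ext <;> simp
  rw [this]
  exact Submodule.zero_mem _

theorem Good.add_left {p p' q : E × k} (h : Good ρ t p q) (h' : Good ρ t p' q) :
    Good ρ t (p + p') q := by
  obtain ⟨c, h1, h2⟩ := h
  obtain ⟨c', h1', h2'⟩ := h'
  refine ⟨c + c', ?_, ?_⟩
  · simp only [Prod.fst_add, Prod.snd_add, add_mul, mul_add]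
    linear_combination (norm := module) h1 + h1'
  · have : ((p + p').1 * q.1, c + c' + (p + p').2 * q.2) =
        (p.1 * q.1, c + p.2 * q.2) + (p'.1 * q.1, c' + p'.2 * q.2) := by
      ext
      · simp [add_mul]
      · simp only [Prod.snd_add, Prod.mk_add_mk]
        ring
    rw [this]
    exact Submodule.add_mem _ h2 h2'

theorem Good.add_right {p q q' : E × k} (h : Good ρ t p q) (h' : Good ρ t p q') :
    Good ρ t p (q + q') := by
  obtain ⟨c, h1, h2⟩ := h
  obtain ⟨c', h1', h2'⟩ := h'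
  refine ⟨c + c', ?_, ?_⟩
  · simp only [Prod.fst_add, Prod.snd_add, add_mul, mul_add]
    linear_combination (norm := module) h1 + h1'
  · have : (p.1 * (q + q').1, c + c' + p.2 * (q + q').2) =
        (p.1 * q.1, c + p.2 * q.2) + (p.1 * q'.1, c' + p.2 * q'.2) := by
      ext
      · simp [mul_add]
      · simp only [Prod.snd_add, Prod.mk_add_mk]
        ring
    rw [this]
    exact Submodule.add_mem _ h2 h2'

theorem Good.smul_left {p q : E × k} (a : k) (h : Good ρ t p q) : Good ρ t (a • p) q := by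
  obtain ⟨c, h1, h2⟩ := h
  refine ⟨a * c, ?_, ?_⟩
  · simp only [Prod.smul_fst, Prod.smul_snd, smul_mul_assoc, mul_smul_comm, smul_eq_mul]
    linear_combination (norm := module) a • h1
  · have : ((a • p).1 * q.1, a * c + (a • p).2 * q.2) = a • (p.1 * q.1, c + p.2 * q.2) := by
      ext
      · simp
      · simp only [Prod.smul_snd, Prod.smul_mk, smul_eq_mul]
        ring
    rw [this]
    exact Submodule.smul_mem _ a h2

theorem Good.smul_right {p q : E × k} (a : k) (h : Good ρ t p q) : Good ρ t p (a • q) := by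
  obtain ⟨c, h1, h2⟩ := h
  refine ⟨a * c, ?_, ?_⟩
  · simp only [Prod.smul_fst, Prod.smul_snd, smul_mul_assoc, mul_smul_comm, smul_eq_mul]
    linear_combination (norm := module) a • h1
  · have : (p.1 * (a • q).1, a * c + p.2 * (a • q).2) = a • (p.1 * q.1, c + p.2 * q.2) := by
      ext
      · simp
      · simp only [Prod.smul_snd, Prod.smul_mk, smul_eq_mul]
        ring
    rw [this]
    exact Submodule.smul_mem _ a h2

theorem good (h : ∀ g, ρ g * ρ g - t g • ρ g + (ω g : k) • 1 = 0) {p q : E × k}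
    (hp : p ∈ pairSpan ρ t) (hq : q ∈ pairSpan ρ t) : Good ρ t p q := by
  induction hp using Submodule.span_induction with
  | mem p hp =>
    obtain ⟨g, rfl⟩ := hp
    induction hq using Submodule.span_induction with
    | mem q hq =>
      obtain ⟨g', rfl⟩ := hq
      exact good_gen h g g'
    | zero => exact Good.zero_right _
    | add q q' _ _ hq hq' => exact hq.add_right hq'
    | smul a q _ hq => exact hq.smul_right a
  | zero => exact Good.zero_left _
  | add p p' _ _ hp hp' => exact hp.add_left hp'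
  | smul a p _ hp => exact hp.smul_left a

theorem mul_mem (h : ∀ g, ρ g * ρ g - t g • ρ g + (ω g : k) • 1 = 0) {p q : E × k}
    (hp : p ∈ pairSpan ρ t) (hq : q ∈ pairSpan ρ t) : ∃ s : k, (p.1 * q.1, s) ∈ pairSpan ρ t := by
  obtain ⟨c, -, h2⟩ := good h hp hq
  exact ⟨_, h2⟩

theorem gen_mem (g : G) : (ρ g, t g) ∈ pairSpan ρ t := Submodule.subset_span ⟨g, rfl⟩

theorem one_mem : ((1 : E), t 1) ∈ pairSpan ρ t := by
  have := gen_mem (ρ := ρ) (t := t) 1
  rwa [map_one] at this

end Pairs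


section Main

variable {k E G V : Type*} [Field k] [Ring E] [Algebra k E] [Group G] [AddCommGroup V] [Module k V]
  {ρ : G →* E} {ω : G →* kˣ} {t : G → k} {π : E →ₐ[k] Module.End k V}

/-- `g₀` has the two distinct eigenvalues `a`, `b` on `V`. -/
structure Split (ρ : G →* E) (π : E →ₐ[k] Module.End k V) (g₀ : G) (a b : k) (va vb : V) :
    Prop where
  hab : a ≠ b
  va_ne : va ≠ 0
  vb_ne : vb ≠ 0
  ha : π (ρ g₀) va = a • va
  hb : π (ρ g₀) vb = b • vb

theorem Split.symm {g₀ : G} {a b : k} {va vb : V} (S : Split ρ π g₀ a b va vb) :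
    Split ρ π g₀ b a vb va :=
  ⟨S.hab.symm, S.vb_ne, S.va_ne, S.hb, S.ha⟩

/-- the projector on the eigenspace of `a` -/
def proj (ρ : G →* E) (g₀ : G) (a b : k) : E := (a - b)⁻¹ • (ρ g₀ - b • 1)

variable {g₀ : G} {a b : k} {va vb : V}

theorem eigen_rel (h : ∀ g, ρ g * ρ g - t g • ρ g + (ω g : k) • 1 = 0) {g : G} {c : k} {v : V}
    (hv : v ≠ 0) (hc : π (ρ g) v = c • v) : c * c - t g * c + (ω g : k) = 0 := by
  have h1 := congrArg (fun x : E => π x v) (h g)
  simp only [map_add, map_sub, map_mul, map_smul, map_one, map_zero, LinearMap.add_apply,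
    LinearMap.sub_apply, Module.End.mul_apply, LinearMap.smul_apply, Module.End.one_apply,
    LinearMap.zero_apply, hc] at h1
  have h2 : (c * c - t g * c + (ω g : k)) • v = 0 := by
    rw [← h1]; module
  exact (smul_eq_zero.1 h2).resolve_right hv

theorem Split.t_eq (S : Split ρ π g₀ a b va vb)
    (h : ∀ g, ρ g * ρ g - t g • ρ g + (ω g : k) • 1 = 0) : t g₀ = a + b := by
  have h1 := eigen_rel h S.va_ne S.ha
  have h2 := eigen_rel h S.vb_ne S.hb
  have h3 : (a - b) * (a + b - t g₀) = 0 := by linear_combination h1 - h2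
  have h4 := (mul_eq_zero.1 h3).resolve_left (sub_ne_zero.2 S.hab)
  linear_combination -h4

theorem Split.ω_eq (S : Split ρ π g₀ a b va vb)
    (h : ∀ g, ρ g * ρ g - t g • ρ g + (ω g : k) • 1 = 0) : (ω g₀ : k) = a * b := by
  have h1 := eigen_rel h S.va_ne S.ha
  rw [S.t_eq h] at h1
  linear_combination h1

theorem Split.t_one (S : Split ρ π g₀ a b va vb)
    (h : ∀ g, ρ g * ρ g - t g • ρ g + (ω g : k) • 1 = 0) : t 1 = 2 := by
  have h1 := eigen_rel (π := π) (g := 1) (c := 1) (v := va) h S.va_ne (by simp)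
  simp only [map_one, Units.val_one] at h1
  linear_combination -h1

theorem Split.proj_mem (S : Split ρ π g₀ a b va vb)
    (h : ∀ g, ρ g * ρ g - t g • ρ g + (ω g : k) • 1 = 0) :
    (proj ρ g₀ a b, (1 : k)) ∈ pairSpan ρ t := by
  have h1 : (proj ρ g₀ a b, (1 : k)) = (a - b)⁻¹ • ((ρ g₀, t g₀) - b • ((1 : E), t 1)) := by
    ext
    · simp [proj]
    · simp only [Prod.smul_snd, Prod.snd_sub, smul_eq_mul]
      rw [S.t_eq h, S.t_one h]
      have := sub_ne_zero.2 S.hab
      field_simp
      ring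
  rw [h1]
  exact Submodule.smul_mem _ _ (Submodule.sub_mem _ (gen_mem g₀) (Submodule.smul_mem _ _ one_mem))

theorem Split.proj_mul_self (S : Split ρ π g₀ a b va vb)
    (h : ∀ g, ρ g * ρ g - t g • ρ g + (ω g : k) • 1 = 0) :
    proj ρ g₀ a b * proj ρ g₀ a b = proj ρ g₀ a b := by
  have h1 := h g₀
  rw [S.t_eq h, S.ω_eq h] at h1
  have h0 := sub_ne_zero.2 S.hab
  have h2 : (ρ g₀ - b • (1 : E)) * (ρ g₀ - b • 1) = (a - b) • (ρ g₀ - b • 1) := by
    simp only [sub_mul, mul_sub, smul_mul_assoc, mul_smul_comm, one_mul, mul_one]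
    linear_combination (norm := module) h1
  unfold proj
  rw [smul_mul_smul_comm, h2, smul_smul, mul_assoc, inv_mul_cancel₀ h0, mul_one]

theorem Split.proj_add (S : Split ρ π g₀ a b va vb) : proj ρ g₀ a b + proj ρ g₀ b a = 1 := by
  have h0 := sub_ne_zero.2 S.hab
  have h1 : (b - a)⁻¹ = -(a - b)⁻¹ := by rw [← neg_sub, neg_inv]
  unfold proj
  rw [h1]
  have : (a - b)⁻¹ • (ρ g₀ - b • (1 : E)) + -(a - b)⁻¹ • (ρ g₀ - a • 1) =
      ((a - b)⁻¹ * (a - b)) • 1 := by module
  rw [this, inv_mul_cancel₀ h0, one_smul]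

theorem Split.proj_va (S : Split ρ π g₀ a b va vb) : π (proj ρ g₀ a b) va = va := by
  have h0 := sub_ne_zero.2 S.hab
  simp only [proj, map_smul, map_sub, map_one, LinearMap.smul_apply, LinearMap.sub_apply,
    Module.End.one_apply, S.ha]
  rw [← sub_smul, smul_smul, inv_mul_cancel₀ h0, one_smul]

theorem Split.proj_vb (S : Split ρ π g₀ a b va vb) : π (proj ρ g₀ a b) vb = 0 := by
  simp only [proj, map_smul, map_sub, map_one, LinearMap.smul_apply, LinearMap.sub_apply,
    Module.End.one_apply, S.hb, sub_self, smul_zero]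

theorem Split.proj_mul_proj (S : Split ρ π g₀ a b va vb)
    (h : ∀ g, ρ g * ρ g - t g • ρ g + (ω g : k) • 1 = 0) :
    proj ρ g₀ a b * proj ρ g₀ b a = 0 := by
  have h1 : proj ρ g₀ b a = 1 - proj ρ g₀ a b := by rw [← S.proj_add]; abel
  rw [h1, mul_sub, mul_one, S.proj_mul_self h, sub_self]

/-- `e q e` is a multiple of `e`. -/
theorem Split.corner (S : Split ρ π g₀ a b va vb)
    (h : ∀ g, ρ g * ρ g - t g • ρ g + (ω g : k) • 1 = 0) {q : E × k} (hq : q ∈ pairSpan ρ t) :
    ∃ s : k, proj ρ g₀ a b * q.1 * proj ρ g₀ a b = s • proj ρ g₀ a b := by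
  obtain ⟨c, h1, -⟩ := good h (S.proj_mem h) hq
  set e := proj ρ g₀ a b with he
  have hee : e * e = e := S.proj_mul_self h
  refine ⟨q.2 + c, ?_⟩
  have h2 := congrArg (fun x : E => e * x * e) h1
  simp only [mul_add, add_mul, mul_smul_comm, smul_mul_assoc, mul_one, one_smul] at h2
  have h3 : e * (e * q.1) * e = e * q.1 * e := by rw [← mul_assoc, hee]
  have h4 : e * (q.1 * e) * e = e * q.1 * e := by rw [mul_assoc, mul_assoc, hee, ← mul_assoc]
  rw [h3, h4, hee, hee] at h2
  linear_combination (norm := module) h2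

/-- an element of the span which is zero on `V` anticommutes with everything, up to the trace -/
theorem Split.star (S : Split ρ π g₀ a b va vb)
    (h : ∀ g, ρ g * ρ g - t g • ρ g + (ω g : k) • 1 = 0) {x : E × k} (hx : x ∈ pairSpan ρ t)
    (hx0 : π x.1 = 0) {q : E × k} (hq : q ∈ pairSpan ρ t) :
    x.1 * q.1 + q.1 * x.1 = q.2 • x.1 := by
  -- `x.2 = 0`
  have hx2 : x.2 = 0 := by
    obtain ⟨c, h1, -⟩ := good h hx (S.proj_mem h)
    have h2 := congrArg π h1
    simp only [map_add, map_mul, map_smul, map_one, hx0, zero_mul, mul_zero, smul_zero,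
      zero_add] at h2
    have hb := congrArg (fun f : Module.End k V => f vb) h2
    simp only [LinearMap.zero_apply, LinearMap.add_apply, LinearMap.smul_apply, S.proj_vb,
      smul_zero, zero_add, Module.End.one_apply] at hb
    have hc : c = 0 := (smul_eq_zero.1 hb.symm).resolve_right S.vb_ne
    have ha := congrArg (fun f : Module.End k V => f va) h2
    simp only [LinearMap.zero_apply, LinearMap.smul_apply, S.proj_va, hc, zero_smul,
      add_zero] at ha
    exact (smul_eq_zero.1 ha.symm).resolve_right S.va_ne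
  obtain ⟨c, h1, -⟩ := good h hx hq
  rw [hx2, zero_smul, add_zero] at h1
  have h2 := congrArg π h1
  simp only [map_add, map_mul, map_smul, map_one, hx0, zero_mul, mul_zero, smul_zero,
    zero_add] at h2
  have ha := congrArg (fun f : Module.End k V => f va) h2
  simp only [LinearMap.zero_apply, LinearMap.smul_apply, Module.End.one_apply] at ha
  have hc : c = 0 := (smul_eq_zero.1 ha.symm).resolve_right S.va_ne
  rw [h1, hc, zero_smul, add_zero]

/-- commutators kill the elements of the span which are zero on `V` -/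
theorem Split.comm (S : Split ρ π g₀ a b va vb)
    (h : ∀ g, ρ g * ρ g - t g • ρ g + (ω g : k) • 1 = 0) {x : E × k} (hx : x ∈ pairSpan ρ t)
    (hx0 : π x.1 = 0) {y z : E × k} (hy : y ∈ pairSpan ρ t) (hz : z ∈ pairSpan ρ t) :
    (y.1 * z.1 - z.1 * y.1) * x.1 = 0 := by
  obtain ⟨c, h1, h2⟩ := good h hy hz
  have e1 := S.star h hx hx0 hy
  have e2 := S.star h hx hx0 hz
  have e3 := S.star h hx hx0 h2
  simp only at e3
  set X := x.1
  set Y := y.1
  set Z := z.1
  -- `X Y = y.2 X - Y X`, `X Z = z.2 X - Z X`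
  have f1 : X * Y = y.2 • X - Y * X := by linear_combination (norm := module) e1
  have f2 : X * Z = z.2 • X - Z * X := by linear_combination (norm := module) e2
  have f3 : X * (Y * Z) = (y.2 * z.2) • X - y.2 • (Z * X) - z.2 • (Y * X) + Y * Z * X := by
    rw [← mul_assoc, f1, sub_mul, smul_mul_assoc, f2, mul_assoc, f2, mul_sub, mul_smul_comm,
      mul_assoc]
    module
  have f4 := congrArg (fun w : E => w * X) h1
  simp only [add_mul, smul_mul_assoc, one_mul] at f4
  rw [f3] at e3
  rw [sub_mul]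
  linear_combination (norm := module) e3 - f4

end Main

section Irr

variable {k E G V : Type*} [Field k] [Ring E] [Algebra k E] [Group G] [AddCommGroup V] [Module k V]
  {ρ : G →* E} {ω : G →* kˣ} {t : G → k} {π : E →ₐ[k] Module.End k V}
  {g₀ : G} {a b : k} {va vb : V}

/-- the orbit map `p ↦ p u` -/
def orb (ρ : G →* E) (t : G → k) {M : Type*} [AddCommGroup M] [Module k M]
    (π : E →ₐ[k] Module.End k M) (u : M) : pairSpan ρ t →ₗ[k] M :=
  (LinearMap.applyₗ u).comp (π.toLinearMap.comp ((LinearMap.fst k E k).comp (pairSpan ρ t).subtype))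

theorem orb_apply {M : Type*} [AddCommGroup M] [Module k M] (π : E →ₐ[k] Module.End k M) (u : M)
    (p : pairSpan ρ t) : orb ρ t π u p = π p.1.1 u := rfl

theorem orb_surjective (h : ∀ g, ρ g * ρ g - t g • ρ g + (ω g : k) • 1 = 0)
    (hirr : ∀ U : Submodule k V, (∀ g, ∀ x ∈ U, π (ρ g) x ∈ U) → U = ⊥ ∨ U = ⊤) {u : V}
    (hu : u ≠ 0) : Function.Surjective (orb ρ t π u) := by
  rw [← LinearMap.range_eq_top]
  refine (hirr _ ?_).resolve_left ?_
  · rintro g _ ⟨p, rfl⟩
    obtain ⟨s, hs⟩ := mul_mem h (gen_mem g) p.2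
    exact ⟨⟨_, hs⟩, by simp only [orb_apply, map_mul, Module.End.mul_apply]⟩
  · intro h0
    have h1 : u ∈ LinearMap.range (orb ρ t π u) :=
      ⟨⟨_, one_mem⟩, by simp only [orb_apply, map_one, Module.End.one_apply]⟩
    rw [h0, Submodule.mem_bot] at h1
    exact hu h1

theorem Split.proj_mul_eq_zero (S : Split ρ π g₀ a b va vb)
    (h : ∀ g, ρ g * ρ g - t g • ρ g + (ω g : k) • 1 = 0)
    (hirr : ∀ U : Submodule k V, (∀ g, ∀ x ∈ U, π (ρ g) x ∈ U) → U = ⊥ ∨ U = ⊤)
    {x : E × k} (hx : x ∈ pairSpan ρ t) (hx0 : π x.1 = 0) : proj ρ g₀ a b * x.1 = 0 := by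
  obtain ⟨y₁, hy₁⟩ := orb_surjective h hirr S.va_ne vb
  obtain ⟨y₂, hy₂⟩ := orb_surjective h hirr S.vb_ne va
  rw [orb_apply] at hy₁ hy₂
  set e := proj ρ g₀ a b with he
  set e' := proj ρ g₀ b a with he'
  have hee : e * e = e := S.proj_mul_self h
  have hee' : e * e' = 0 := S.proj_mul_proj h
  have me : (e, (1 : k)) ∈ pairSpan ρ t := S.proj_mem h
  have me' : (e', (1 : k)) ∈ pairSpan ρ t := S.symm.proj_mem h
  obtain ⟨s₁, m₁⟩ := mul_mem h me' y₁.2
  obtain ⟨s₂, m₂⟩ := mul_mem h m₁ me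
  obtain ⟨s₃, m₃⟩ := mul_mem h y₂.2 m₁
  simp only at m₂ m₃
  -- `n x = 0`
  have hn : e' * y₁.1.1 * e * x.1 = 0 := by
    have h1 := S.comm h hx hx0 me m₂
    simp only at h1
    have h2 : e * (e' * y₁.1.1 * e) = 0 := by rw [← mul_assoc, ← mul_assoc, hee', zero_mul, zero_mul]
    have h3 : e' * y₁.1.1 * e * e = e' * y₁.1.1 * e := by rw [mul_assoc, hee]
    rw [h2, h3, zero_sub, neg_mul, neg_eq_zero] at h1
    exact h1
  obtain ⟨s, hs⟩ := S.corner h m₃
  simp only at hs
  have hs1 : s = 1 := by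
    have h1 := congrArg (fun w : E => π w va) hs
    simp only [map_mul, map_smul, Module.End.mul_apply, LinearMap.smul_apply] at h1
    rw [← he] at h1
    rw [S.proj_va, hy₁, S.symm.proj_va, hy₂, S.proj_va] at h1
    have h2 : (s - 1) • va = 0 := by rw [sub_smul, one_smul, ← h1, sub_self]
    exact sub_eq_zero.1 ((smul_eq_zero.1 h2).resolve_right S.va_ne)
  rw [hs1, one_smul] at hs
  calc e * x.1 = e * (y₂.1.1 * (e' * y₁.1.1)) * e * x.1 := by rw [hs]
    _ = e * y₂.1.1 * (e' * y₁.1.1 * e * x.1) := by simp only [mul_assoc]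
    _ = 0 := by rw [hn, mul_zero]

/-- **Boston-Lenstra-Ribet**: an element of the span which is zero on `V` is zero. -/
theorem Split.eq_zero (S : Split ρ π g₀ a b va vb)
    (h : ∀ g, ρ g * ρ g - t g • ρ g + (ω g : k) • 1 = 0)
    (hirr : ∀ U : Submodule k V, (∀ g, ∀ x ∈ U, π (ρ g) x ∈ U) → U = ⊥ ∨ U = ⊤)
    {x : E × k} (hx : x ∈ pairSpan ρ t) (hx0 : π x.1 = 0) : x.1 = 0 := by
  have h1 := S.proj_mul_eq_zero h hirr hx hx0
  have h2 := S.symm.proj_mul_eq_zero h hirr hx hx0
  calc x.1 = (proj ρ g₀ a b + proj ρ g₀ b a) * x.1 := by rw [S.proj_add, one_mul]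
    _ = 0 := by rw [add_mul, h1, h2, add_zero]

variable {W : Type*} [AddCommGroup W] [Module k W] {πW : E →ₐ[k] Module.End k W}

theorem Split.exists_embedding_aux (S : Split ρ π g₀ a b va vb)
    (h : ∀ g, ρ g * ρ g - t g • ρ g + (ω g : k) • 1 = 0)
    (hirr : ∀ U : Submodule k V, (∀ g, ∀ x ∈ U, π (ρ g) x ∈ U) → U = ⊥ ∨ U = ⊤)
    {w : W} (hw : w ≠ 0) (hew : πW (proj ρ g₀ a b) w = w) :
    ∃ ι : V →ₗ[k] W, Function.Injective ι ∧ ∀ g v, ι (π (ρ g) v) = πW (ρ g) (ι v) := by
  set e := proj ρ g₀ a b with he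
  have me : (e, (1 : k)) ∈ pairSpan ρ t := S.proj_mem h
  have hsurj := orb_surjective h hirr S.va_ne
  have hker : LinearMap.ker (orb ρ t π va) ≤ LinearMap.ker (orb ρ t πW w) := by
    intro p hp
    rw [LinearMap.mem_ker, orb_apply] at hp ⊢
    obtain ⟨s, ms⟩ := mul_mem h p.2 me
    simp only at ms
    have h0 : π (p.1.1 * e) = 0 := by
      ext v
      obtain ⟨q, rfl⟩ := hsurj v
      obtain ⟨c, hc⟩ := S.corner h q.2
      rw [orb_apply, map_mul, Module.End.mul_apply, LinearMap.zero_apply]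
      have h1 : π e (π q.1.1 va) = c • va := by
        have h2 := congrArg (fun z : E => π z va) hc
        simp only [map_mul, map_smul, Module.End.mul_apply, LinearMap.smul_apply] at h2
        rw [← he] at h2
        rwa [S.proj_va] at h2
      rw [h1, map_smul, hp, smul_zero]
    have h1 := S.eq_zero h hirr ms h0
    simp only at h1
    have h2 := congrArg (fun z : E => πW z w) h1
    simp only [map_mul, Module.End.mul_apply, map_zero, LinearMap.zero_apply] at h2
    rwa [hew] at h2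
  let ι : V →ₗ[k] W := ((LinearMap.ker (orb ρ t π va)).liftQ (orb ρ t πW w) hker).comp
    ((orb ρ t π va).quotKerEquivOfSurjective hsurj).symm.toLinearMap
  have hι : ∀ p, ι (orb ρ t π va p) = orb ρ t πW w p := by
    intro p
    have h1 : ((orb ρ t π va).quotKerEquivOfSurjective hsurj).symm (orb ρ t π va p) =
        Submodule.Quotient.mk p := by
      rw [LinearEquiv.symm_apply_eq]
      rfl
    show (LinearMap.ker (orb ρ t π va)).liftQ (orb ρ t πW w) hker
      (((orb ρ t π va).quotKerEquivOfSurjective hsurj).symm (orb ρ t π va p)) = _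
    rw [h1]
    rfl
  have hequi : ∀ g v, ι (π (ρ g) v) = πW (ρ g) (ι v) := by
    intro g v
    obtain ⟨p, rfl⟩ := hsurj v
    obtain ⟨s, hs⟩ := mul_mem h (gen_mem g) p.2
    have h1 : π (ρ g) (orb ρ t π va p) = orb ρ t π va ⟨_, hs⟩ := by
      simp only [orb_apply, map_mul, Module.End.mul_apply]
    rw [h1, hι, hι]
    simp only [orb_apply, map_mul, Module.End.mul_apply]
  refine ⟨ι, ?_, hequi⟩
  rw [← LinearMap.ker_eq_bot]
  refine (hirr _ ?_).resolve_right ?_
  · intro g x hx
    rw [LinearMap.mem_ker] at hx ⊢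
    rw [hequi, hx, map_zero]
  · intro htop
    have h1 : va ∈ LinearMap.ker ι := by rw [htop]; trivial
    rw [LinearMap.mem_ker] at h1
    have h2 : orb ρ t π va ⟨_, one_mem⟩ = va := by
      simp only [orb_apply, map_one, Module.End.one_apply]
    rw [← h2, hι] at h1
    simp only [orb_apply, map_one, Module.End.one_apply] at h1
    exact hw h1

end Irr

/-- **The embedding theorem.** -/
theorem exists_embedding {k G V W : Type*} [Field k] [Group G] [AddCommGroup V] [Module k V]
    [AddCommGroup W] [Module k W] [Nontrivial W]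
    (ρV : G →* Module.End k V) (ρW : G →* Module.End k W) (ω : G →* kˣ) (t : G → k)
    (hV : ∀ g, ρV g * ρV g - t g • ρV g + (ω g : k) • 1 = 0)
    (hW : ∀ g, ρW g * ρW g - t g • ρW g + (ω g : k) • 1 = 0)
    (hirr : ∀ U : Submodule k V, (∀ g, ∀ x ∈ U, ρV g x ∈ U) → U = ⊥ ∨ U = ⊤)
    (g₀ : G) (a b : k) (hab : a ≠ b) (va vb : V) (hva : va ≠ 0) (hvb : vb ≠ 0)
    (ha : ρV g₀ va = a • va) (hb : ρV g₀ vb = b • vb) :
    ∃ ι : V →ₗ[k] W, Function.Injective ι ∧ ∀ g v, ι (ρV g v) = ρW g (ι v) := by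
  let ρ : G →* Module.End k V × Module.End k W := ρV.prod ρW
  let π : Module.End k V × Module.End k W →ₐ[k] Module.End k V := AlgHom.fst k _ _
  let πW : Module.End k V × Module.End k W →ₐ[k] Module.End k W := AlgHom.snd k _ _
  have h : ∀ g, ρ g * ρ g - t g • ρ g + (ω g : k) • 1 = 0 := fun g => Prod.ext (hV g) (hW g)
  have S : Split ρ π g₀ a b va vb := ⟨hab, hva, hvb, ha, hb⟩
  obtain ⟨w, hw⟩ := exists_ne (0 : W)
  by_cases h1 : πW (proj ρ g₀ a b) w = 0
  · have h2 : πW (proj ρ g₀ b a) w = w := by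
      have h3 := congrArg (fun z => πW z w) S.proj_add
      simp only [map_add, LinearMap.add_apply, h1, zero_add, map_one, Module.End.one_apply] at h3
      exact h3
    exact S.symm.exists_embedding_aux (πW := πW) h hirr hw h2
  · refine S.exists_embedding_aux (πW := πW) h hirr h1 ?_
    rw [← Module.End.mul_apply, ← map_mul, S.proj_mul_self h]

end Fermat.Agent.S44.V.BLR
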