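/-
S44, block V (helper3): `NodeEmbed` from the key lemma (Boston-Lenstra-Ribet for `E[p]`).

The eigenspace `{x ∈ E.W N p | IsEig x}` is a `G_ℚ`-stable subgroup of the Kummer model, killed by
`p`, of finite level, nonzero, and the Frobenius elements satisfy on it the Eichler-Shimura relation
`φ ^ 2 - a_ℓ φ + ℓ = 0`.
-/
import Fermat.Agent.S44.V.Defs
import Fermat.Agent.GAL.E.Package
import Fermat.Agent.GAL.E.Exists
import Fermat.Agent.GAL.E.FiniteLevel
import Fermat.Agent.NV2.Consumer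

set_option autoImplicit false

noncomputable section

namespace Fermat.Agent.S44.V

open ModularCurve AlgebraicCurve Fermat.Agent.S24 Fermat.Agent.GAL
open WeierstrassCurve WeierstrassCurve.Affine WeierstrassCurve.Affine.Point

/-- the statement of the key lemma `key` (`S44/V/Key.lean`), for `V : Type` -/
def KeyStatement : Prop :=
  ∀ (P : FreyPackage),
    GaloisRepIsIrreducible (K := AlgebraicClosure ℚ) ℚ P.freyCurve P.p →
    ∀ (W : WeierstrassCurve ℤ), W.IsIntegralModelOf P.freyCurve → ∀ (S : ℕ), S ≠ 0 →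
    P.p ∣ S → ∀ {V : Type} [AddCommGroup V], (∀ v : V, P.p • v = 0) →
    (∃ v : V, v ≠ 0) → ∀ (r : GQ →* AddMonoid.End V),
    (∃ L : IntermediateField ℚ Qb, FiniteDimensional ℚ L ∧
      ∀ σ : GQ, (∀ x ∈ L, σ x = x) → r σ = 1) →
    (∀ ℓ : ℕ, ℓ.Prime → W.IsGoodPrimeFor ℓ → ¬ ℓ ∣ S →
      ∀ A : ValuationSubring Qb, A.LiesOverPrime ℓ → ∀ φ : GQ, A.IsFrobeniusAt φ ℓ →
        ∀ v : V, r φ (r φ v) - W.apOfModel ℓ • r φ v + (ℓ : ℤ) • v = 0) →
    ∃ ι : S13.Vp P →+ V, Function.Injective ι ∧ ∀ (σ : GQ) (y : S13.Vp P), ι (σ • y) = r σ (ι y)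

/-- the eigenspace -/
def eigSub (P : FreyPackage) (W : WeierstrassCurve ℤ) (N : ℕ) : AddSubgroup (E.W N P.p) where
  carrier := {x | IsEig P W N N x}
  zero_mem' := by
    intro ℓ _ _ _ _ H a _
    rw [_root_.map_zero, smul_zero]
  add_mem' := by
    intro x y hx hy ℓ _ hℓ hg hℓN H a ha
    rw [map_add, hx ℓ hℓ hg hℓN H a ha, hy ℓ hℓ hg hℓN H a ha, smul_add]
  neg_mem' := by
    intro x hx ℓ _ hℓ hg hℓN H a ha
    rw [map_neg, hx ℓ hℓ hg hℓN H a ha, smul_neg]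

theorem mem_eigSub {P : FreyPackage} {W : WeierstrassCurve ℤ} {N : ℕ} {x : E.W N P.p} :
    x ∈ eigSub P W N ↔ IsEig P W N N x := Iff.rfl

theorem rho_mem_eigSub {P : FreyPackage} {W : WeierstrassCurve ℤ} {N : ℕ} (σ : GQ)
    {x : E.W N P.p} (hx : x ∈ eigSub P W N) : E.rho N P.p σ x ∈ eigSub P W N := by
  intro ℓ _ hℓ hg hℓN H a ha
  rw [E.pkg_T_rho, hx ℓ hℓ hg hℓN H a ha, map_nsmul]

/-- the Galois action on the eigenspace -/
def eigRho (P : FreyPackage) (W : WeierstrassCurve ℤ) (N : ℕ) :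
    GQ →* AddMonoid.End (eigSub P W N) where
  toFun σ := ((E.rho N P.p σ).comp (eigSub P W N).subtype).codRestrict (eigSub P W N)
    fun x => rho_mem_eigSub σ x.2
  map_one' := by
    ext x
    show E.rho N P.p 1 (x : E.W N P.p) = x
    rw [map_one]
    rfl
  map_mul' σ τ := by
    ext x
    show E.rho N P.p (σ * τ) (x : E.W N P.p) = E.rho N P.p σ (E.rho N P.p τ (x : E.W N P.p))
    rw [map_mul]
    rfl

@[simp] theorem coe_eigRho (P : FreyPackage) (W : WeierstrassCurve ℤ) (N : ℕ) (σ : GQ)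
    (x : eigSub P W N) : ((eigRho P W N σ x : eigSub P W N) : E.W N P.p) = E.rho N P.p σ x := rfl

theorem nodeEmbed_of (hKL : KLStatement) (hkey : KeyStatement) : NodeEmbed := by
  intro P N _ hpN hirr W hW x hx0 hxe
  have hfin : Finite (E.W N P.p) := NV2.finite_W N P.p P.pp.pos
  have hlev : ∃ L : IntermediateField ℚ Qb, FiniteDimensional ℚ L ∧
      ∀ σ : GQ, (∀ x ∈ L, σ x = x) → eigRho P W N σ = 1 := by
    obtain ⟨L, hL, h⟩ := E.exists_finite_level_rho N P.p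
    refine ⟨L, hL, fun σ hσ => ?_⟩
    ext v
    rw [coe_eigRho, h σ hσ]
    rfl
  have hfrob : ∀ ℓ : ℕ, ℓ.Prime → W.IsGoodPrimeFor ℓ → ¬ ℓ ∣ N →
      ∀ A : ValuationSubring Qb, A.LiesOverPrime ℓ → ∀ φ : GQ, A.IsFrobeniusAt φ ℓ →
        ∀ v : eigSub P W N, eigRho P W N φ (eigRho P W N φ v) - W.apOfModel ℓ • eigRho P W N φ v
          + (ℓ : ℤ) • v = 0 := by
    intro ℓ hℓ hg hℓN A hA φ hφ v
    have : NeZero ℓ := ⟨hℓ.ne_zero⟩
    have hℓp : ¬ ℓ ∣ P.p := fun h => hℓN (h.trans hpN)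
    have hES := E.pkg_eichlerShimura hKL (E.heckeOp N ℓ hℓ hℓN) P.p hℓ hℓN hℓp φ ⟨A, hA, hφ⟩
      (v : E.W N P.p)
    have hmem : E.rho N P.p φ (v : E.W N P.p) ∈ eigSub P W N := rho_mem_eigSub φ v.2
    have hcast : ((((W.apOfModel ℓ : ℤ) : ZMod P.p).val : ℕ) : ZMod P.p)
        = ((W.apOfModel ℓ : ℤ) : ZMod P.p) := ZMod.natCast_zmod_val _
    rw [hmem ℓ hℓ hg hℓN (E.heckeOp N ℓ hℓ hℓN) _ hcast] at hES
    obtain ⟨c, hc⟩ : (P.p : ℤ) ∣ W.apOfModel ℓ - (((W.apOfModel ℓ : ℤ) : ZMod P.p).val : ℕ) := by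
      rw [← ZMod.intCast_zmod_eq_zero_iff_dvd]
      push_cast
      rw [hcast, sub_self]
    have hz : W.apOfModel ℓ • E.rho N P.p φ (v : E.W N P.p)
        = (((W.apOfModel ℓ : ℤ) : ZMod P.p).val : ℕ) • E.rho N P.p φ (v : E.W N P.p) := by
      have h1 : W.apOfModel ℓ = (((W.apOfModel ℓ : ℤ) : ZMod P.p).val : ℕ) + c * (P.p : ℤ) := by
        linear_combination hc
      conv_lhs => rw [h1]
      rw [add_smul, mul_smul, natCast_zsmul, natCast_zsmul, E.nsmul_W, smul_zero, add_zero]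
    apply Subtype.ext
    simp only [AddSubgroup.coe_add, AddSubgroup.coe_sub, AddSubgroup.coe_zsmul, coe_eigRho,
      AddSubgroup.coe_zero, natCast_zsmul]
    rw [hz]
    exact hES
  obtain ⟨ι, hinj, hequi⟩ := hkey P hirr W hW N (NeZero.ne N) hpN (V := eigSub P W N)
    (fun v => Subtype.ext (by simpa using E.nsmul_W (v : E.W N P.p)))
    ⟨⟨x, hxe⟩, fun h => hx0 (congrArg Subtype.val h)⟩ (eigRho P W N) hlev hfrob
  refine ⟨(eigSub P W N).subtype.comp ι, ?_, ?_, ?_⟩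
  · exact Subtype.val_injective.comp hinj
  · intro σ y
    simp only [AddMonoidHom.comp_apply, hequi]
    rfl
  · intro y
    exact (ι y).2

end Fermat.Agent.S44.V

end
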